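import Fermat.Agent.S14.H225.Class
import Fermat.Agent.S11.EchLevel

/-!
# S14, CAT glue (helper225), part 3: `CATStatement` from Thaine + Density + Units
-/

set_option autoImplicit false
set_option linter.unusedSectionVars false

noncomputable section

open NumberField
open scoped nonZeroDivisors

namespace Fermat.Agent.S14.H225

open Fermat.Agent.S14.Spec

section Lam

variable (p : ℕ) [hp : Fact p.Prime]
variable (K : Type) [Field K] [NumberField K] [IsCyclotomicExtension {p} ℚ K]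

/-- Mathlib's primitive root. -/
lemma zeta_spec' : haveI := neZero p
    IsPrimitiveRoot (IsCyclotomicExtension.zeta p ℚ K) p :=
  haveI := neZero p
  IsCyclotomicExtension.zeta_spec p ℚ K

lemma lam_eq : lam p K = (zeta_spec' p K).toInteger - 1 := rfl

lemma lam_prime : Prime (lam p K) := by
  rw [lam_eq]
  exact (zeta_spec' p K).zeta_sub_one_prime'

lemma lam_dvd_p : lam p K ^ (p - 1) ∣ (p : 𝓞 K) := by
  rw [lam_eq]
  exact (IsCyclotomicExtension.Rat.associated_zeta_sub_one_pow_prime p (zeta_spec' p K)).dvd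

lemma lam_cube_dvd_p (h5 : 5 ≤ p) : lam p K ^ 3 ∣ (p : 𝓞 K) :=
  (pow_dvd_pow _ (by omega)).trans (lam_dvd_p p K)

lemma lam_dvd_p' : lam p K ∣ (p : 𝓞 K) :=
  (dvd_pow_self _ (by have := hp.out.two_le; omega)).trans (lam_dvd_p p K)

lemma lam_not_dvd_int {a : ℤ} (ha : ¬ (p : ℤ) ∣ a) : ¬ lam p K ∣ (a : 𝓞 K) := by
  intro h
  have hcop : IsCoprime a (p : ℤ) := by
    rw [isCoprime_comm, Int.isCoprime_iff_gcd_eq_one, ← Int.natAbs_natCast p]
    have := (Nat.Prime.coprime_iff_not_dvd hp.out).mpr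
      (fun h' => ha (Int.natCast_dvd.mpr h'))
    simpa [Int.gcd] using this
  obtain ⟨x, y, hxy⟩ := hcop
  have h1 : lam p K ∣ ((x * a + y * p : ℤ) : 𝓞 K) := by
    push_cast
    exact dvd_add (Dvd.dvd.mul_left h _) (Dvd.dvd.mul_left (lam_dvd_p' p K) _)
  rw [hxy] at h1
  exact (lam_prime p K).not_isUnit (isUnit_of_dvd_one (by simpa using h1))

lemma exists_int_pow (t : 𝓞 K) : ∃ m : ℤ, (p : 𝓞 K) ∣ t ^ p - m :=
  Fermat.Agent.S11.Ech.exists_int_sub_pow_prime_dvd (zeta_spec' p K) t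

end Lam

lemma type_two_aux {F : Type*} [Field F] (T V Y S σV : F) (p n : ℕ) (hS : S ≠ 0)
    (h : S ^ p * σV = (T ^ p * V) ^ n * Y ^ p) : σV = V ^ n * (T ^ n * Y / S) ^ p := by
  have hSp : S ^ p ≠ 0 := pow_ne_zero _ hS
  have h1 : σV = (T ^ p * V) ^ n * Y ^ p / S ^ p := by
    rw [eq_div_iff hSp, mul_comm]
    exact h
  rw [h1, div_pow, mul_pow, mul_pow, ← pow_mul, ← pow_mul, mul_comm n p]
  ring

/-- **CAT** from Thaine, Density and Units. -/
theorem cat_of (hT : ThaineStatement) (hN : DensityStatement) (hU : UnitStatement) :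
    CATStatement := by
  intro p _ h5 K _ _ _ α hα
  obtain ⟨hα0, htype, ⟨I, hI⟩, ⟨a₀, ha₀, hloc⟩⟩ := hα
  have hp0 : p ≠ 0 := (Fact.out : p.Prime).ne_zero
  -- `I` is nonzero
  have hI0 : I ≠ ⊥ := by
    rintro rfl
    rw [Ideal.bot_pow hp0] at hI
    rw [Ideal.span_singleton_eq_bot] at hI
    exact hα0 hI
  have hImem : I ∈ (Ideal (𝓞 K))⁰ := mem_nonZeroDivisors_iff_ne_zero.mpr hI0
  have hc := mk0_eq_one hT hN h5 hα0 htype ⟨I, hImem⟩ hI
  rw [ClassGroup.mk0_eq_one_iff hImem] at hc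
  obtain ⟨t, ht⟩ := hc.principal
  have ht' : I = Ideal.span {t} := ht
  -- `α = t ^ p * u`
  rw [ht', Ideal.span_singleton_pow, Ideal.span_singleton_eq_span_singleton] at hI
  obtain ⟨u, hu⟩ := hI
  -- hu : α * u = t ^ p
  have ht0 : t ≠ 0 := by
    rintro rfl
    apply hI0
    rw [ht']
    simp
  -- work with `v := u⁻¹`, `α = t ^ p * v`
  set v : (𝓞 K)ˣ := u⁻¹ with hv
  have hαv : α = t ^ p * (v : 𝓞 K) := by
    rw [← hu, mul_assoc, hv, Units.mul_inv, mul_one]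
  -- type two
  have htype_v : IsTypeTwo p K (((v : 𝓞 K)) : K) := by
    intro σ
    obtain ⟨y, hy⟩ := htype σ
    have htK : (algebraMap (𝓞 K) K t) ≠ 0 := by
      simpa using ht0
    have hσt : σ (algebraMap (𝓞 K) K t) ≠ 0 := by
      simpa using htK
    have hαK : algebraMap (𝓞 K) K α =
        (algebraMap (𝓞 K) K t) ^ p * algebraMap (𝓞 K) K (v : 𝓞 K) := by
      rw [hαv, map_mul, map_pow]
    have hy' : σ (algebraMap (𝓞 K) K α) =
        (algebraMap (𝓞 K) K α) ^ (galExp p K σ ^ 2) * y ^ p := hy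
    refine ⟨(algebraMap (𝓞 K) K t) ^ (galExp p K σ ^ 2) * y / σ (algebraMap (𝓞 K) K t), ?_⟩
    show σ (algebraMap (𝓞 K) K (v : 𝓞 K)) = (algebraMap (𝓞 K) K (v : 𝓞 K)) ^ (galExp p K σ ^ 2) *
      ((algebraMap (𝓞 K) K t) ^ (galExp p K σ ^ 2) * y / σ (algebraMap (𝓞 K) K t)) ^ p
    rw [hαK, map_mul, map_pow] at hy'
    exact type_two_aux _ _ _ _ _ p _ hσt hy'
  -- congruence
  have hcong : ∃ b : ℤ, ((v : 𝓞 K) - (b : 𝓞 K)) ∈ Ideal.span {lam p K ^ 3} := by
    obtain ⟨m, hm⟩ := exists_int_pow p K t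
    have hlam3 := lam_cube_dvd_p p K h5
    rw [Ideal.mem_span_singleton] at hloc
    -- `λ ∤ α`
    have hα_lam : ¬ lam p K ∣ α := by
      intro h
      apply lam_not_dvd_int p K ha₀
      have h2 : lam p K ∣ α - a₀ := (dvd_pow_self _ (by norm_num)).trans hloc
      have := dvd_sub h h2
      simpa using this
    have ht_lam : ¬ lam p K ∣ t := by
      intro h
      apply hα_lam
      rw [hαv]
      exact Dvd.dvd.mul_right (dvd_pow h hp0) _
    have hm_lam : ¬ lam p K ∣ (m : 𝓞 K) := by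
      intro h
      apply ht_lam
      have h2 : lam p K ∣ t ^ p - m := (lam_dvd_p' p K).trans hm
      have h3 : lam p K ∣ t ^ p := by
        have := dvd_add h2 h
        simpa using this
      exact (lam_prime p K).dvd_of_dvd_pow h3
    have hpm : ¬ (p : ℤ) ∣ m := by
      intro h
      apply hm_lam
      obtain ⟨k, rfl⟩ := h
      push_cast
      exact Dvd.dvd.mul_right (lam_dvd_p' p K) _
    have hcop : IsCoprime m (p : ℤ) := by
      rw [isCoprime_comm, Int.isCoprime_iff_gcd_eq_one, ← Int.natAbs_natCast p]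
      have := (Nat.Prime.coprime_iff_not_dvd (Fact.out : p.Prime)).mpr
        (fun h' => hpm (Int.natCast_dvd.mpr h'))
      simpa [Int.gcd] using this
    obtain ⟨m', y, hmy⟩ := hcop
    refine ⟨a₀ * m', ?_⟩
    rw [Ideal.mem_span_singleton]
    -- v - a₀ m' = v (1 - m m') + m' (v m - a₀),  v m - a₀ = v (m - t^p) + (α - a₀)
    obtain ⟨r, hr⟩ := hm
    obtain ⟨s, hs⟩ := hlam3
    obtain ⟨w, hw⟩ := hloc
    have hmy' : ((m' : 𝓞 K) * m + y * p : 𝓞 K) = 1 := by
      have := congrArg (fun z : ℤ => (z : 𝓞 K)) hmy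
      simpa using this
    refine ⟨(v : 𝓞 K) * y * s - m' * (v : 𝓞 K) * s * r + m' * w, ?_⟩
    push_cast
    linear_combination (-(v : 𝓞 K)) * hmy' - (m' : 𝓞 K) * (v : 𝓞 K) * hr +
      ((v : 𝓞 K) * y - m' * (v : 𝓞 K) * r) * hs + (m' : 𝓞 K) * hw - (m' : 𝓞 K) * hαv
  obtain ⟨z, hz⟩ := hU p h5 K v htype_v hcong
  refine ⟨algebraMap (𝓞 K) K (t * (z : 𝓞 K)), ?_⟩
  show algebraMap (𝓞 K) K α = _
  rw [← map_pow, hαv, hz]
  congr 1
  push_cast
  ring

end Fermat.Agent.S14.H225
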