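import Fermat.Agent.S14.H225.Cat

/-!
# S14, CAT glue (helper225), part 4: the case `p = 3` (`CAT3Statement`)

Uses Mathlib's toolkit for `ℤ[ζ₃]` (PID, Kummer's lemma for `3`, cubes mod `λ⁴`).
-/

set_option autoImplicit false
set_option linter.unusedSectionVars false

noncomputable section

open NumberField
open scoped nonZeroDivisors

namespace Fermat.Agent.S14.H225

open Fermat.Agent.S14.Spec

/-- **CAT** for `p = 3`. -/
theorem cat3 : CAT3Statement := by
  intro K _ _ _ α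
  have : Fact (Nat.Prime 3) := ⟨Nat.prime_three⟩
  intro hα
  obtain ⟨hα0, -, ⟨I, hI⟩, ⟨a₀, ha₀, hloc⟩⟩ := hα
  have hζ := zeta_spec' 3 K
  have hlam : lam 3 K = hζ.toInteger - 1 := rfl
  have := IsCyclotomicExtension.Rat.three_pid K
  obtain ⟨t, ht⟩ := (IsPrincipalIdealRing.principal I).principal
  have ht' : I = Ideal.span {t} := ht
  rw [ht', Ideal.span_singleton_pow, Ideal.span_singleton_eq_span_singleton] at hI
  obtain ⟨u, hu⟩ := hI
  set v : (𝓞 K)ˣ := u⁻¹ with hv
  have hαv : α = t ^ 3 * (v : 𝓞 K) := by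
    rw [← hu, mul_assoc, hv, Units.mul_inv, mul_one]
  rw [Ideal.mem_span_singleton] at hloc
  have hα_lam : ¬ lam 3 K ∣ α := by
    intro h
    apply lam_not_dvd_int 3 K ha₀
    have h2 : lam 3 K ∣ α - a₀ := (dvd_pow_self _ (by norm_num)).trans hloc
    have := dvd_sub h h2
    simpa using this
  have ht_lam : ¬ (hζ.toInteger - 1) ∣ t := by
    rw [← hlam]
    intro h
    apply hα_lam
    rw [hαv]
    exact Dvd.dvd.mul_right (dvd_pow h (by norm_num)) _
  obtain ⟨w, hw⟩ := hloc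
  rw [hlam] at hw
  have hcong : ∃ n : ℤ, (hζ.toInteger - 1) ^ 2 ∣ ((v : 𝓞 K) - n : 𝓞 K) := by
    rcases IsCyclotomicExtension.Rat.Three.lambda_pow_four_dvd_cube_sub_one_or_add_one_of_lambda_not_dvd
      hζ ht_lam with ⟨r, hr⟩ | ⟨r, hr⟩
    · refine ⟨a₀, (hζ.toInteger - 1) * w - (hζ.toInteger - 1) ^ 2 * r * v, ?_⟩
      linear_combination hw - hαv - (v : 𝓞 K) * hr
    · refine ⟨-a₀, -(hζ.toInteger - 1) * w + (hζ.toInteger - 1) ^ 2 * r * v, ?_⟩
      push_cast
      linear_combination -hw + hαv + (v : 𝓞 K) * hr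
  rcases IsCyclotomicExtension.Rat.Three.eq_one_or_neg_one_of_unit_of_congruent hζ v hcong
    with h1 | h1
  · refine ⟨algebraMap (𝓞 K) K t, ?_⟩
    show algebraMap (𝓞 K) K α = _
    rw [← map_pow, hαv, h1]
    simp
  · refine ⟨algebraMap (𝓞 K) K (-t), ?_⟩
    show algebraMap (𝓞 K) K α = _
    rw [← map_pow, hαv, h1]
    congr 1
    push_cast
    ring

end Fermat.Agent.S14.H225
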