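import Fermat.Agent.S14.H225.Theta

/-!
# S14, CAT glue (helper225), part 2: the ideal class of a Kummer datum is trivial
-/

set_option autoImplicit false
set_option linter.unusedSectionVars false

noncomputable section

open NumberField
open scoped nonZeroDivisors

namespace Fermat.Agent.S14.H225

open Fermat.Agent.S14.Spec

section Basic

variable (p : ℕ) [hp : Fact p.Prime]
variable (K : Type) [Field K] [NumberField K] [IsCyclotomicExtension {p} ℚ K]

lemma coe_ringAut (σ : K ≃ₐ[ℚ] K) (x : 𝓞 K) :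
    algebraMap (𝓞 K) K (ringAut K σ x) = σ (algebraMap (𝓞 K) K x) :=
  algebraMap_galRestrict_apply ℤ σ x

lemma galExp_coprime (σ : K ≃ₐ[ℚ] K) : Nat.Coprime (galExp p K σ) p := by
  have := neZero p
  have hu : IsUnit (((JacobiSumStickelberger.cycloGalEquiv p K σ : (ZMod p)ˣ) : ZMod p)) :=
    Units.isUnit _
  rw [galExp]
  rw [← ZMod.natCast_zmod_val ((JacobiSumStickelberger.cycloGalEquiv p K σ : (ZMod p)ˣ) :
    ZMod p)] at hu
  exact (ZMod.isUnit_iff_coprime _ _).mp hu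

lemma galExp_pow_mod (σ : K ≃ₐ[ℚ] K) : galExp p K σ ^ (p - 1) % p = 1 := by
  have h := galExp_coprime p K σ
  have h1 : ((galExp p K σ : ℕ) : ZMod p) ^ (p - 1) = 1 := by
    apply ZMod.pow_card_sub_one_eq_one
    intro h0
    rw [ZMod.natCast_eq_zero_iff] at h0
    have := Nat.Coprime.eq_one_of_dvd h.symm h0
    exact hp.out.ne_one this
  have h2 : ((galExp p K σ ^ (p - 1) : ℕ) : ZMod p) = ((1 : ℕ) : ZMod p) := by
    push_cast
    exact h1
  rw [ZMod.natCast_eq_natCast_iff'] at h2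
  rw [h2, Nat.mod_eq_of_lt hp.out.one_lt]

lemma card_gal : Fintype.card (K ≃ₐ[ℚ] K) = p - 1 := by
  have := neZero p
  rw [Fintype.card_congr (JacobiSumStickelberger.cycloGalEquiv p K).toEquiv, ZMod.card_units]

end Basic

section ClassOfDatum

variable {p : ℕ} [hp : Fact p.Prime]
variable {K : Type} [Field K] [NumberField K] [IsCyclotomicExtension {p} ℚ K]

/-- The class of a `p`-th root of a principal ideal is `p`-torsion. -/
lemma mk0_pow_eq_one {α : 𝓞 K} (I : (Ideal (𝓞 K))⁰)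
    (hI : Ideal.span {α} = (I : Ideal (𝓞 K)) ^ p) : (ClassGroup.mk0 I) ^ p = 1 := by
  rw [← map_pow]
  have hmem : (I : Ideal (𝓞 K)) ^ p ∈ (Ideal (𝓞 K))⁰ := (I ^ p).2
  have : I ^ p = ⟨(I : Ideal (𝓞 K)) ^ p, hmem⟩ := Subtype.ext rfl
  rw [this, ClassGroup.mk0_eq_one_iff hmem, ← hI]
  exact ⟨⟨α, rfl⟩⟩

/-- Galois action on the class of a type-`ω²` Kummer datum. -/
lemma clAct_mk0 {α : 𝓞 K} (hα : α ≠ 0) (htype : IsTypeTwo p K (α : K)) (I : (Ideal (𝓞 K))⁰)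
    (hI : Ideal.span {α} = (I : Ideal (𝓞 K)) ^ p) (σ : K ≃ₐ[ℚ] K) :
    clAct K σ (ClassGroup.mk0 I) = (ClassGroup.mk0 I) ^ (galExp p K σ ^ 2) := by
  have hp0 : p ≠ 0 := hp.out.ne_zero
  set a := galExp p K σ with ha
  obtain ⟨y, hy⟩ := htype σ
  rw [clAct, ClassGroup.mulEquiv_mk0, ← map_pow]
  -- write `y = y₁ / y₂`
  obtain ⟨y₁, y₂, hy₂, rfl⟩ := IsFractionRing.div_surjective (A := 𝓞 K) y
  have hy₂0 : y₂ ≠ 0 := nonZeroDivisors.ne_zero hy₂
  have hy₂K : (algebraMap (𝓞 K) K y₂) ≠ 0 := by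
    simpa using hy₂0
  have hαK : (α : K) ≠ 0 := by
    simpa using hα
  -- the relation in `𝓞 K`
  have hrel : ringAut K σ α * y₂ ^ p = α ^ (a ^ 2) * y₁ ^ p := by
    apply IsFractionRing.injective (𝓞 K) K
    rw [map_mul, map_mul, map_pow, map_pow, map_pow, coe_ringAut]
    have hy' : σ (algebraMap (𝓞 K) K α) = (algebraMap (𝓞 K) K α) ^ (a ^ 2) *
        (algebraMap (𝓞 K) K y₁ / algebraMap (𝓞 K) K y₂) ^ p := hy
    rw [hy', div_pow]
    field_simp
  have hy₁0 : y₁ ≠ 0 := by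
    rintro rfl
    rw [zero_pow hp0, mul_zero] at hrel
    rcases mul_eq_zero.mp hrel with h | h
    · exact hα ((map_eq_zero_iff _ (ringAut K σ).injective).mp h)
    · exact hy₂0 (pow_eq_zero_iff hp0 |>.mp h)
  rw [ClassGroup.mk0_eq_mk0_iff]
  refine ⟨y₂, y₁, hy₂0, hy₁0, ?_⟩
  have e1 : ((I ^ (a ^ 2) : (Ideal (𝓞 K))⁰) : Ideal (𝓞 K)) = (I : Ideal (𝓞 K)) ^ (a ^ 2) := rfl
  rw [e1, Ideal.coe_mapNonZero, ← pow_left_inj (M := Ideal (𝓞 K)) hp0]
  have hL : (Ideal.span {y₂} * (I : Ideal (𝓞 K)).map (ringAut K σ : 𝓞 K →+* 𝓞 K)) ^ p =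
      Ideal.span {y₂ ^ p * ringAut K σ α} := by
    rw [mul_pow, Ideal.span_singleton_pow, ← Ideal.map_pow, ← hI, Ideal.map_span,
      Set.image_singleton, Ideal.span_singleton_mul_span_singleton]
    rfl
  have hR : (Ideal.span {y₁} * (I : Ideal (𝓞 K)) ^ (a ^ 2)) ^ p =
      Ideal.span {y₁ ^ p * α ^ (a ^ 2)} := by
    rw [mul_pow, Ideal.span_singleton_pow, ← pow_mul, mul_comm (a ^ 2) p, pow_mul, ← hI,
      Ideal.span_singleton_pow, Ideal.span_singleton_mul_span_singleton]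
  rw [hL, hR, mul_comm (y₂ ^ p), hrel, mul_comm]

/-- `Θ` acts as inversion on the class of a Kummer datum. -/
lemma theta_mk0 {α : 𝓞 K} (hα : α ≠ 0) (htype : IsTypeTwo p K (α : K)) (I : (Ideal (𝓞 K))⁰)
    (hI : Ideal.span {α} = (I : Ideal (𝓞 K)) ^ p) (h5 : 5 ≤ p) :
    theta p K (ClassGroup.mk0 I) = (ClassGroup.mk0 I)⁻¹ := by
  have hc := mk0_pow_eq_one I hI
  set c := ClassGroup.mk0 I with hcdef
  have hterm : ∀ σ : K ≃ₐ[ℚ] K, (clAct K σ c) ^ (galExp p K σ ^ (p - 3)) = c := by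
    intro σ
    rw [clAct_mk0 hα htype I hI σ, ← pow_mul, ← pow_add,
      show 2 + (p - 3) = p - 1 by omega, pow_eq_pow_mod _ hc, galExp_pow_mod, pow_one]
  rw [theta, Finset.prod_congr rfl (fun σ _ => hterm σ), Finset.prod_const, Finset.card_univ,
    card_gal p K]
  rw [eq_inv_iff_mul_eq_one, ← pow_succ, show p - 1 + 1 = p by have := hp.out.pos; omega, hc]

/-- The class of a Kummer datum is trivial (given Thaine + Density). -/
theorem mk0_eq_one (hT : ThaineStatement) (hN : DensityStatement) (h5 : 5 ≤ p)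
    {α : 𝓞 K} (hα : α ≠ 0) (htype : IsTypeTwo p K (α : K)) (I : (Ideal (𝓞 K))⁰)
    (hI : Ideal.span {α} = (I : Ideal (𝓞 K)) ^ p) : ClassGroup.mk0 I = 1 := by
  have hc := mk0_pow_eq_one I hI
  have hθ := theta_mk0 hα htype I hI h5
  set c := ClassGroup.mk0 I with hcdef
  apply eq_one_of_forall_pow p c hc
  intro n
  induction n with
  | zero => exact ⟨c, by simp⟩
  | succ n ih =>
    obtain ⟨d, hd⟩ := ih
    obtain ⟨J, hJ⟩ := theta_mem_pow p K hT hN h5 d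
    refine ⟨J⁻¹, ?_⟩
    have h1 : c⁻¹ = J ^ (p ^ (n + 1)) := by
      rw [← hθ, ← thetaHom_apply, hd, map_pow, thetaHom_apply, hJ, ← pow_mul, pow_succ']
    rw [inv_pow, ← h1, inv_inv]

end ClassOfDatum

end Fermat.Agent.S14.H225
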