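import Fermat.Agent.S14.Spec

/-!
# S14, CAT glue (helper225), part 1: `Θ(Cl) ⊆ Cl^p` from Thaine + Density

Pure group theory on the class group.
-/

set_option autoImplicit false
set_option linter.unusedSectionVars false

noncomputable section

open NumberField
open scoped nonZeroDivisors

namespace Fermat.Agent.S14.H225

open Fermat.Agent.S14.Spec

section Characters

/-- A nonzero vector of an `𝔽_p`-vector space is detected by an additive character. -/
theorem exists_addHom_ne_zero (p : ℕ) [hp : Fact p.Prime] (A : Type*) [AddCommGroup A]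
    [Module (ZMod p) A] (a : A) (ha : a ≠ 0) : ∃ f : A →+ ZMod p, f a ≠ 0 := by
  obtain ⟨f, hf⟩ : ∃ f : A →ₗ[ZMod p] ZMod p, f a ≠ 0 := by
    by_contra h
    push Not at h
    exact ha ((Module.forall_dual_apply_eq_zero_iff (ZMod p) _).mp h)
  exact ⟨f.toAddMonoidHom, hf⟩

variable {G : Type*} [CommGroup G]

/-- A proper subgroup `H` of an abelian group containing all `p`-th powers is contained in
the kernel of a nontrivial character with values in `ℤ/p`. -/
theorem exists_character_of_ne_top (p : ℕ) [hp : Fact p.Prime] (H : Subgroup G)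
    (hpow : ∀ x : G, x ^ p ∈ H) (hH : H ≠ ⊤) :
    ∃ χ : G →* Multiplicative (ZMod p), χ ≠ 1 ∧ ∀ x ∈ H, χ x = 1 := by
  classical
  -- the quotient, written additively, is an `𝔽_p`-vector space
  have hA : ∀ a : Additive (G ⧸ H), p • a = 0 := by
    intro a
    obtain ⟨x, hx⟩ := QuotientGroup.mk_surjective (Additive.toMul a)
    have : a = Additive.ofMul (QuotientGroup.mk x : G ⧸ H) := by
      rw [hx]; rfl
    rw [this]
    change Additive.ofMul ((QuotientGroup.mk x : G ⧸ H) ^ p) = 0
    rw [← QuotientGroup.mk_pow, (QuotientGroup.eq_one_iff _).mpr (hpow x)]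
    rfl
  obtain ⟨x₀, hx₀⟩ : ∃ x : G, x ∉ H := by
    by_contra h
    push Not at h
    exact hH (eq_top_iff.mpr fun x _ => h x)
  have ha : (Additive.ofMul (QuotientGroup.mk x₀ : G ⧸ H)) ≠ 0 := by
    intro h
    apply hx₀
    exact (QuotientGroup.eq_one_iff x₀).mp (Additive.ofMul.injective h)
  obtain ⟨f, hf⟩ := @exists_addHom_ne_zero p _ (Additive (G ⧸ H)) _
    (AddCommGroup.zmodModule hA) _ ha
  let g : Additive G →+ ZMod p :=
    f.comp (MonoidHom.toAdditive (QuotientGroup.mk' H))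
  refine ⟨AddMonoidHom.toMultiplicativeRight g, ?_, ?_⟩
  · intro h
    have h1 := DFunLike.congr_fun h x₀
    apply hf
    exact Multiplicative.ofAdd.injective h1
  · intro x hx
    have h0 : (Additive.ofMul (QuotientGroup.mk x : G ⧸ H)) = 0 := by
      rw [(QuotientGroup.eq_one_iff _).mpr hx]
      rfl
    show Multiplicative.ofAdd (f (Additive.ofMul (QuotientGroup.mk x))) = 1
    rw [h0, map_zero]
    rfl

end Characters

section Theta

variable (p : ℕ) [hp : Fact p.Prime]
variable (K : Type) [Field K] [NumberField K] [IsCyclotomicExtension {p} ℚ K]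

/-- `Θ` as a monoid homomorphism. -/
def thetaHom : ClassGroup (𝓞 K) →* ClassGroup (𝓞 K) :=
  ∏ σ : K ≃ₐ[ℚ] K, (powMonoidHom (galExp p K σ ^ (p - 3))).comp (clAct K σ).toMonoidHom

lemma thetaHom_apply (x : ClassGroup (𝓞 K)) : thetaHom p K x = theta p K x := by
  simp [thetaHom, theta]

/-- the subgroup of `p`-th powers -/
def powSubgroup : Subgroup (ClassGroup (𝓞 K)) := (powMonoidHom p : ClassGroup (𝓞 K) →* _).range

lemma mem_powSubgroup {x : ClassGroup (𝓞 K)} :
    x ∈ powSubgroup p K ↔ ∃ J : ClassGroup (𝓞 K), x = J ^ p := by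
  simp only [powSubgroup, MonoidHom.mem_range, powMonoidHom_apply]
  constructor
  · rintro ⟨J, rfl⟩
    exact ⟨J, rfl⟩
  · rintro ⟨J, rfl⟩
    exact ⟨J, rfl⟩

/-- the set of classes of good primes -/
def goodClasses : Set (ClassGroup (𝓞 K)) :=
  {c | ∃ Q : (Ideal (𝓞 K))⁰, IsGoodPrime p K (Q : Ideal (𝓞 K)) ∧ c = ClassGroup.mk0 Q}

/-- Density ⇒ the good primes generate `Cl / Cl^p`. -/
theorem good_generate (hN : DensityStatement) (h5 : 5 ≤ p) :
    powSubgroup p K ⊔ Subgroup.closure (goodClasses p K) = ⊤ := by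
  by_contra hne
  obtain ⟨χ, hχ, hker⟩ := exists_character_of_ne_top p _ (fun x => by
    apply Subgroup.mem_sup_left
    exact (mem_powSubgroup p K).mpr ⟨x, rfl⟩) hne
  obtain ⟨Q, hQ, hQχ⟩ := hN p h5 K χ hχ
  apply hQχ
  apply hker
  apply Subgroup.mem_sup_right
  exact Subgroup.subset_closure ⟨Q, hQ, rfl⟩

/-- Thaine + Density ⇒ `Θ(Cl) ⊆ Cl^p`. -/
theorem theta_mem_pow (hT : ThaineStatement) (hN : DensityStatement) (h5 : 5 ≤ p)
    (x : ClassGroup (𝓞 K)) : ∃ J : ClassGroup (𝓞 K), theta p K x = J ^ p := by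
  have hle : powSubgroup p K ⊔ Subgroup.closure (goodClasses p K) ≤
      (powSubgroup p K).comap (thetaHom p K) := by
    rw [sup_le_iff]
    constructor
    · intro y hy
      obtain ⟨J, rfl⟩ := (mem_powSubgroup p K).mp hy
      rw [Subgroup.mem_comap, map_pow]
      exact (mem_powSubgroup p K).mpr ⟨_, rfl⟩
    · rw [Subgroup.closure_le]
      rintro y ⟨Q, hQ, rfl⟩
      rw [SetLike.mem_coe, Subgroup.mem_comap, thetaHom_apply]
      exact (mem_powSubgroup p K).mpr (hT p h5 K Q hQ)
  have hx : x ∈ (powSubgroup p K).comap (thetaHom p K) := by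
    apply hle
    rw [good_generate p K hN h5]
    trivial
  rw [Subgroup.mem_comap, thetaHom_apply] at hx
  exact (mem_powSubgroup p K).mp hx

end Theta

section Torsion

variable {G : Type*} [CommGroup G] [Finite G]

/-- If `c^p = 1` and `c` is a `p^n`-th power for every `n`, then `c = 1`. -/
theorem eq_one_of_forall_pow (p : ℕ) [hp : Fact p.Prime] (c : G) (hc : c ^ p = 1)
    (h : ∀ n : ℕ, ∃ d : G, c = d ^ (p ^ n)) : c = 1 := by
  have hpos : Nat.card G ≠ 0 := Nat.card_pos.ne'
  obtain ⟨k, m, hm, hkm⟩ := Nat.exists_eq_pow_mul_and_not_dvd hpos p hp.out.ne_one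
  obtain ⟨d, rfl⟩ := h k
  have h1 : (d ^ (p ^ k)) ^ m = 1 := by
    rw [← pow_mul, ← hkm]
    exact pow_card_eq_one'
  have hcop : Nat.Coprime p m := (Nat.Prime.coprime_iff_not_dvd hp.out).mpr hm
  have h2 := orderOf_dvd_of_pow_eq_one hc
  have h3 := orderOf_dvd_of_pow_eq_one h1
  have h4 : orderOf (d ^ (p ^ k)) ∣ 1 := by
    have := Nat.dvd_gcd h2 h3
    rwa [Nat.Coprime.gcd_eq_one hcop] at this
  exact orderOf_eq_one_iff.mp (Nat.dvd_one.mp h4)

end Torsion

end Fermat.Agent.S14.H225
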